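/-
P-SS2 row 1113 (SS2-Q2-c, REGL at `q = 2`), helper66.

THE REGULARITY OF THE LEVEL-`2 M` MODEL, `9 ∣ M`, `M` ODD (the `q = 2` twin of row 900):

* `ssCrossDataG_h9` : helper8's level-9 crossing data `Fermat.Agent.H8.SS.ssCrossData9` in
  helper59's generic form `SSCrossDataStatementG M q (coeffMap (Int.castRingHom ℚ) h9Z) R`;
* `levelRegFrobR_h9` : helper59's `modelLevelRegFrob_h9Z` in helper67's rooted form;
* `nodeGenR_two : NodeGenRStatement M 2 (coeffMap (Int.castRingHom ℚ) h9Z) (3 * M)` : input (N)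
  of REGL at `q = 2` (helper67's `nodeGenR_of` + helper71's FRAC-loc at `R = ktAuxRoot M 2`);
* `regLR_two : RegLRStatement M 2 (coeffMap (Int.castRingHom ℚ) h9Z) (3 * M)` : REGL at `q = 2`,
  both charts (helper7's `regLR_of` with helper41's inputs (S), (C) at `R = 3 M`);
* `regLR_two_h9S` : the same with the Hauptmodul written as `h9S ℚ`;
* `regLChartR_two`, `regLChartR_two_h9S` : the chart `j` alone; `h9Z_rat_mem_full` : the level.
-/
import Fermat.Agent.H67.SS.NodeGen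
import Fermat.Agent.H67.SS.RegMono
import Fermat.Agent.H59.SS.LevelRegSS9
import Fermat.Agent.H8.SS.Cross9Data
import Fermat.Agent.H71.SS.KtNodeFinal
import Fermat.Agent.H41.SS2N.SmoothGenNine

set_option autoImplicit false
set_option linter.style.haveILetI false
set_option linter.unusedSectionVars false
set_option linter.unusedVariables false

noncomputable section

namespace Fermat.Agent.H66.SS2Q2

open ModularCurve
open Fermat.Agent.H22.KL Fermat.Agent.H31.SS Fermat.Agent.H7.SS2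

/-- The integral Hauptmodul of level 9 lies in the model field of level `M`, `9 ∣ M`. -/
theorem h9Z_level (M : ℕ) [NeZero M] (h9 : 9 ∣ M) (K₁ : Type) [Field K₁] [Algebra ℚ K₁] :
    coeffMap (Int.castRingHom K₁) h9Z ∈ laurentBaseChange K₁ (modularFunctionFieldFull M) := by
  rw [coeffMap_h9Z]
  exact h9S_mem_laurentBaseChange K₁ M h9

/-- `coeffEmb K₁` of the rational Hauptmodul series, written through `h9Z`. -/
theorem coeffEmb_coeffMap_h9Z (K₁ : Type) [Field K₁] [Algebra ℚ K₁] :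
    coeffEmb K₁ (coeffMap (Int.castRingHom ℚ) h9Z) = h9S K₁ := by
  rw [coeffMap_h9Z, coeffEmb_h9S]

/-- **Crossing data at level 9 in the generic form** (helper8's `ssCrossData9`; the roots of
unity are not used). -/
theorem ssCrossDataG_h9 (M q : ℕ) [NeZero M] [NeZero q] (h9 : 9 ∣ M) (hq : q.Prime)
    (hq3 : q ≠ 3) (hqM : ¬ q ∣ M) (R : ℕ) :
    Fermat.Agent.H59.SS.SSCrossDataStatementG M q (coeffMap (Int.castRingHom ℚ) h9Z) R := by
  intro K₁ _ _ _ A₀ _ _ _ _ _ _ _ hqA _ ϖ hϖ x hx W hW 𝔪 h𝔪 hϖ𝔪 hInf hZero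
  obtain ⟨D, Ψ, H, Hq, hH, hHq, hdata⟩ :=
    Fermat.Agent.H8.SS.ssCrossData9 M q h9 hq hq3 hqM K₁ A₀ hqA ϖ hϖ x hx W hW 𝔪 h𝔪 hϖ𝔪
      hInf hZero
  refine ⟨D, Ψ, H, Hq, ?_, ?_, hdata⟩
  · rw [hH, coeffEmb_coeffMap_h9Z]
  · rw [hHq, coeffEmb_coeffMap_h9Z]

/-- **Level-`M` regularity with the explicit Frobenius parameter, level 9**, in helper67's
rooted form (helper59's `modelLevelRegFrob_h9Z`; the roots of unity are not used). -/
theorem levelRegFrobR_h9 (M q : ℕ) [NeZero M] [NeZero q] (hq : q.Prime) (hq3 : q ≠ 3)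
    (hqM : ¬ q ∣ M) (h9 : 9 ∣ M) (R : ℕ) :
    Fermat.Agent.H67.SS.ModelLevelRegFrobStatement M q (coeffMap (Int.castRingHom ℚ) h9Z) R :=
  fun K₁ _ _ _ A₀ _ _ _ _ _ _ _ hqA _ ϖ hϖ x hx 𝔫 h𝔫 hϖ𝔫 U H hH hU hU𝔫 =>
    Fermat.Agent.H59.SS.modelLevelRegFrob_h9Z M q hq hq3 hqM h9 K₁ A₀ hqA ϖ hϖ x hx 𝔫 h𝔫 hϖ𝔫
      U H hH hU hU𝔫

theorem ktAuxRoot_two (M : ℕ) : Fermat.Agent.H71.SS.ktAuxRoot M 2 = 3 * M := by
  unfold Fermat.Agent.H71.SS.ktAuxRoot
  rw [if_pos rfl]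

/-- **INPUT (N) of REGL at `q = 2`** (`9 ∣ M`, `M` odd): the crossing points of the model of
level `2 M` are nodes, `𝔪 B_𝔪 = (X, Y)`, `X = H₂ - H²`, `Y = H - H₂²`, `H` the Hauptmodul of
level 9; roots of unity of order `3 M`. -/
theorem nodeGenR_two (M : ℕ) [NeZero M] (hM : ¬ 2 ∣ M) (h9 : 9 ∣ M) :
    NodeGenRStatement M 2 (coeffMap (Int.castRingHom ℚ) h9Z) (3 * M) := by
  have hF := Fermat.Agent.H71.SS.ktFracLocRoots_aux M 2 Nat.prime_two hM
    (fun h => absurd rfl h) (fun _ => h9)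
  rw [ktAuxRoot_two] at hF
  exact Fermat.Agent.H67.SS.nodeGenR_of M 2 (3 * M) Nat.prime_two hM h9Z (h9Z_level M h9)
    (ssCrossDataG_h9 M 2 h9 Nat.prime_two (by norm_num) hM (3 * M)) hF
    (levelRegFrobR_h9 M 2 Nat.prime_two (by norm_num) hM h9 (3 * M))

/-- **REGL at `q = 2`** (`9 ∣ M`, `M` odd), both charts, over the unramified bases containing the
roots of unity of order `3 M` (prime to `2`). -/
theorem regLR_two (M : ℕ) [NeZero M] (hM : ¬ 2 ∣ M) (h9 : 9 ∣ M) :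
    RegLRStatement M 2 (coeffMap (Int.castRingHom ℚ) h9Z) (3 * M) :=
  regLR_of M 2 Nat.prime_two hM h9Z (3 * M) (h9Z_level M h9)
    (Fermat.Agent.H41.SS2N.smoothGenR_three M 2 Nat.prime_two (by norm_num) hM
      (dvd_trans (by norm_num) h9))
    (nodeGenR_two M hM h9)
    (Fermat.Agent.H41.SS2N.cuspGenR_three M 2 Nat.prime_two hM)

/-- **REGL at `q = 2` in the chart `j`** (`9 ∣ M`, `M` odd). -/
theorem regLChartR_two (M : ℕ) [NeZero M] (hM : ¬ 2 ∣ M) (h9 : 9 ∣ M) :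
    RegLChartRStatement M 2 (coeffMap (Int.castRingHom ℚ) h9Z) (3 * M) :=
  regLChartR_of M 2 Nat.prime_two hM h9Z (3 * M) (h9Z_level M h9)
    (Fermat.Agent.H41.SS2N.smoothGenR_three M 2 Nat.prime_two (by norm_num) hM
      (dvd_trans (by norm_num) h9))
    (nodeGenR_two M hM h9)

/-- **REGL at `q = 2` in the chart `j`** with the Hauptmodul written as `h9S ℚ`. -/
theorem regLChartR_two_h9S (M : ℕ) [NeZero M] (hM : ¬ 2 ∣ M) (h9 : 9 ∣ M) :
    RegLChartRStatement M 2 (h9S ℚ) (3 * M) := by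
  have h := regLChartR_two M hM h9
  rwa [coeffMap_h9Z] at h

/-- The Hauptmodul of level 9 (written through `h9Z`) is a modular function of level `M`. -/
theorem h9Z_rat_mem_full (M : ℕ) [NeZero M] (h9 : 9 ∣ M) :
    coeffMap (Int.castRingHom ℚ) h9Z ∈ modularFunctionFieldFull M := by
  rw [coeffMap_h9Z]
  exact h9S_rat_mem_full M h9

/-- **REGL at `q = 2`** with the Hauptmodul written as `h9S ℚ`. -/
theorem regLR_two_h9S (M : ℕ) [NeZero M] (hM : ¬ 2 ∣ M) (h9 : 9 ∣ M) :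
    RegLRStatement M 2 (h9S ℚ) (3 * M) := by
  have h := regLR_two M hM h9
  rwa [coeffMap_h9Z] at h

/-- `3 M` is prime to `2` for odd `M`. -/
theorem coprime_three_mul_two (M : ℕ) (hM : ¬ 2 ∣ M) : Nat.Coprime (3 * M) 2 :=
  Nat.Coprime.mul_left (by norm_num)
    (Nat.Coprime.symm ((Nat.Prime.coprime_iff_not_dvd Nat.prime_two).2 hM))

end Fermat.Agent.H66.SS2Q2

end
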